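/-
S56 (Taylor–Wiles primes), block (I), ring side, part 1 (helper14).

Finite test algebras `A` over a local ring `𝒪` (S53 `FinTest`): if the set of `𝒪`-algebra
homomorphisms `A → k[ε]` has fewer than `|k| ^ (r + 1)` elements, then `A` is generated as an
`𝒪`-algebra by `r` elements of its maximal ideal.  Pure algebra on top of the S53 toolkit
(`exists_algHom_dualNumber_ne`, `dualHom`).
-/
import Fermat.Agent.S53.TestAlg

set_option autoImplicit false
set_option linter.unusedSectionVars false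
set_option linter.style.haveILetI false

noncomputable section

namespace Fermat.Agent.S56.Ring

open IsLocalRing Fermat.Agent.S53

variable {𝒪 : Type} [CommRing 𝒪] [IsLocalRing 𝒪]
variable {A : Type} [CommRing A] [IsLocalRing A] [Algebra 𝒪 A]

/-- Two `𝒪`-algebra homs from a finite test algebra to the residue field `k` coincide. -/
theorem algHom_resk_unique (hA : FinTest 𝒪 A) (f g : A →ₐ[𝒪] ResidueField 𝒪) : f = g := by
  ext a
  obtain ⟨c, hc⟩ := hA.residue_surjective (residue A a)
  have h1 : a - algebraMap 𝒪 A c ∈ maximalIdeal A := by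
    rw [← residue_eq_zero_iff, map_sub, sub_eq_zero]
    exact hc.symm
  have hf : f (a - algebraMap 𝒪 A c) = 0 := (hA.algHom_resk_eq_zero_iff f _).mpr h1
  have hg : g (a - algebraMap 𝒪 A c) = 0 := (hA.algHom_resk_eq_zero_iff g _).mpr h1
  rw [map_sub, sub_eq_zero, f.commutes] at hf
  rw [map_sub, sub_eq_zero, g.commutes] at hg
  rw [hf, hg]

/-- The first component of an `𝒪`-algebra hom `A → k[ε]`, as an `𝒪`-algebra hom `A → k`. -/
def fstAlgHom (u : letI := dualNumberAlgebra 𝒪; A →ₐ[𝒪] DualNumber (ResidueField 𝒪)) :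
    A →ₐ[𝒪] ResidueField 𝒪 :=
  letI := dualNumberAlgebra 𝒪
  { toFun := fun a => TrivSqZeroExt.fst (u a)
    map_one' := by simp
    map_mul' := fun a b => by simp
    map_zero' := by simp
    map_add' := fun a b => by simp
    commutes' := fun c => by
      rw [u.commutes, dualNumberAlgebra_algebraMap_apply]
      rfl }

theorem fst_algHom_apply (hA : FinTest 𝒪 A) (resk : A →ₐ[𝒪] ResidueField 𝒪)
    (u : letI := dualNumberAlgebra 𝒪; A →ₐ[𝒪] DualNumber (ResidueField 𝒪)) (a : A) :
    TrivSqZeroExt.fst (u a) = resk a := by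
  have := algHom_resk_unique hA (fstAlgHom u) resk
  exact congrArg (fun φ => φ a) this

/-- The second component of an `𝒪`-algebra hom `A → k[ε]`, as an additive map. -/
def sndD (u : letI := dualNumberAlgebra 𝒪; A →ₐ[𝒪] DualNumber (ResidueField 𝒪)) :
    A →+ ResidueField 𝒪 :=
  letI := dualNumberAlgebra 𝒪
  { toFun := fun a => TrivSqZeroExt.snd (u a)
    map_zero' := by simp
    map_add' := fun a b => by simp }

theorem sndD_apply (u : letI := dualNumberAlgebra 𝒪; A →ₐ[𝒪] DualNumber (ResidueField 𝒪))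
    (a : A) : sndD u a = TrivSqZeroExt.snd (u a) := rfl

theorem sndD_mul (hA : FinTest 𝒪 A) (resk : A →ₐ[𝒪] ResidueField 𝒪)
    (u : letI := dualNumberAlgebra 𝒪; A →ₐ[𝒪] DualNumber (ResidueField 𝒪)) (a b : A) :
    sndD u (a * b) = resk a * sndD u b + resk b * sndD u a := by
  letI := dualNumberAlgebra 𝒪
  rw [sndD_apply, sndD_apply, sndD_apply, map_mul, TrivSqZeroExt.snd_mul,
    fst_algHom_apply hA resk u a, fst_algHom_apply hA resk u b]
  simp [mul_comm]

theorem sndD_algebraMap (u : letI := dualNumberAlgebra 𝒪; A →ₐ[𝒪] DualNumber (ResidueField 𝒪))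
    (c : 𝒪) : sndD u (algebraMap 𝒪 A c) = 0 := by
  letI := dualNumberAlgebra 𝒪
  rw [sndD_apply, u.commutes, dualNumberAlgebra_algebraMap_apply]
  rfl

/-- Every hom to the dual numbers is `inl ∘ resk + inr ∘ sndD`. -/
theorem algHom_dualNumber_apply (hA : FinTest 𝒪 A) (resk : A →ₐ[𝒪] ResidueField 𝒪)
    (u : letI := dualNumberAlgebra 𝒪; A →ₐ[𝒪] DualNumber (ResidueField 𝒪)) (a : A) :
    u a = TrivSqZeroExt.inl (resk a) + TrivSqZeroExt.inr (sndD u a) := by
  letI := dualNumberAlgebra 𝒪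
  ext
  · simp [fst_algHom_apply hA resk u a]
  · simp [sndD_apply]

/-- **Mixing**: `w + c • (u - v)` is again an `𝒪`-algebra hom to the dual numbers. -/
theorem exists_mix (hA : FinTest 𝒪 A)
    (u v w : letI := dualNumberAlgebra 𝒪; A →ₐ[𝒪] DualNumber (ResidueField 𝒪))
    (c : ResidueField 𝒪) :
    letI := dualNumberAlgebra 𝒪
    ∃ m : A →ₐ[𝒪] DualNumber (ResidueField 𝒪), ∀ a, TrivSqZeroExt.snd (m a) =
      TrivSqZeroExt.snd (w a) + c * (TrivSqZeroExt.snd (u a) - TrivSqZeroExt.snd (v a)) := by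
  letI := dualNumberAlgebra 𝒪
  obtain ⟨resk, -, -⟩ := exists_resk hA
  let D : A →+ ResidueField 𝒪 :=
    sndD w + (AddMonoidHom.mulLeft c).comp (sndD u - sndD v)
  have hD : ∀ a, D a = sndD w a + c * (sndD u a - sndD v a) := fun a => rfl
  have hmul : ∀ a b, D (a * b) = resk a * D b + resk b * D a := by
    intro a b
    rw [hD, hD, hD, sndD_mul hA resk w, sndD_mul hA resk u, sndD_mul hA resk v]
    ring
  have hcomm : ∀ c' : 𝒪, D (algebraMap 𝒪 A c') = 0 := by
    intro c'
    rw [hD, sndD_algebraMap, sndD_algebraMap, sndD_algebraMap]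
    ring
  refine ⟨dualHom resk D hmul hcomm, fun a => ?_⟩
  rw [dualHom_apply, hD]
  simp [sndD_apply]


/-- A family of homs to the dual numbers is *separated on `S`* if two members agreeing on `S`
have the same index. -/
def SepOn (S : Subalgebra 𝒪 A) {ι : Type}
    (F : ι → (letI := dualNumberAlgebra 𝒪; A →ₐ[𝒪] DualNumber (ResidueField 𝒪))) : Prop :=
  ∀ i j, (∀ s ∈ S, F i s = F j s) → i = j

theorem SepOn.mono {S S' : Subalgebra 𝒪 A} {ι : Type}
    {F : ι → (letI := dualNumberAlgebra 𝒪; A →ₐ[𝒪] DualNumber (ResidueField 𝒪))}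
    (h : SepOn S F) (hSS' : S ≤ S') : SepOn S' F :=
  fun i j hij => h i j fun s hs => hij s (hSS' hs)

theorem SepOn.injective {S : Subalgebra 𝒪 A} {ι : Type}
    {F : ι → (letI := dualNumberAlgebra 𝒪; A →ₐ[𝒪] DualNumber (ResidueField 𝒪))}
    (h : SepOn S F) : Function.Injective F :=
  fun i j hij => h i j fun s _ => by rw [hij]

/-- A proper subalgebra is missed by some element of the maximal ideal and two homs to the dual
numbers that agree on the subalgebra. -/
theorem exists_mem_maximalIdeal_snd_ne (hA : FinTest 𝒪 A) (S : Subalgebra 𝒪 A) (hS : S ≠ ⊤) :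
    letI := dualNumberAlgebra 𝒪
    ∃ (x : A) (u v : A →ₐ[𝒪] DualNumber (ResidueField 𝒪)), x ∈ maximalIdeal A ∧
      (∀ s ∈ S, u s = v s) ∧ TrivSqZeroExt.snd (u x) ≠ TrivSqZeroExt.snd (v x) := by
  letI := dualNumberAlgebra 𝒪
  obtain ⟨resk, -, -⟩ := exists_resk hA
  obtain ⟨u, v, huv, hS'⟩ := exists_algHom_dualNumber_ne hA S hS
  obtain ⟨a, ha⟩ : ∃ a, u a ≠ v a := by
    by_contra hcon
    simp only [not_exists, not_not] at hcon
    exact huv (AlgHom.ext hcon)
  have hsnd : TrivSqZeroExt.snd (u a) ≠ TrivSqZeroExt.snd (v a) := by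
    intro h
    apply ha
    ext
    · rw [fst_algHom_apply hA resk u a, fst_algHom_apply hA resk v a]
    · exact h
  obtain ⟨c, hc⟩ := hA.residue_surjective (residue A a)
  have h1 : a - algebraMap 𝒪 A c ∈ maximalIdeal A := by
    rw [← residue_eq_zero_iff, map_sub, sub_eq_zero]
    exact hc.symm
  refine ⟨a - algebraMap 𝒪 A c, u, v, h1, hS', ?_⟩
  have hu : TrivSqZeroExt.snd (u (a - algebraMap 𝒪 A c)) = TrivSqZeroExt.snd (u a) := by
    have := sndD_algebraMap u c
    rw [sndD_apply] at this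
    rw [map_sub, TrivSqZeroExt.snd_sub, this, sub_zero]
  have hv : TrivSqZeroExt.snd (v (a - algebraMap 𝒪 A c)) = TrivSqZeroExt.snd (v a) := by
    have := sndD_algebraMap v c
    rw [sndD_apply] at this
    rw [map_sub, TrivSqZeroExt.snd_sub, this, sub_zero]
  rw [hu, hv]
  exact hsnd

/-- **Greedy step**: a separated family on a proper subalgebra can be enlarged by a factor `k`
at the cost of one more generator in the maximal ideal. -/
theorem exists_step (hA : FinTest 𝒪 A) (S : Subalgebra 𝒪 A) (hS : S ≠ ⊤) {ι : Type}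
    (F : ι → (letI := dualNumberAlgebra 𝒪; A →ₐ[𝒪] DualNumber (ResidueField 𝒪)))
    (hF : SepOn S F) :
    letI := dualNumberAlgebra 𝒪
    ∃ (x : A) (F' : ι × ResidueField 𝒪 → A →ₐ[𝒪] DualNumber (ResidueField 𝒪)),
      x ∈ maximalIdeal A ∧ ∀ S' : Subalgebra 𝒪 A, S ≤ S' → x ∈ S' → SepOn S' F' := by
  letI := dualNumberAlgebra 𝒪
  obtain ⟨resk, -, -⟩ := exists_resk hA
  obtain ⟨x, u, v, hx, huv, hne⟩ := exists_mem_maximalIdeal_snd_ne hA S hS
  choose m hm using fun p : ι × ResidueField 𝒪 => exists_mix hA u v (F p.1) p.2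
  refine ⟨x, m, hx, fun S' hSS' hxS' => ?_⟩
  rintro ⟨i, c⟩ ⟨j, d⟩ hij
  have hi : i = j := by
    refine hF i j fun s hs => ?_
    have h1 := congrArg TrivSqZeroExt.snd (hij s (hSS' hs))
    rw [hm, hm, huv s hs, sub_self, mul_zero, mul_zero, add_zero, add_zero] at h1
    ext
    · rw [fst_algHom_apply hA resk (F i) s, fst_algHom_apply hA resk (F j) s]
    · exact h1
  subst hi
  have h2 := congrArg TrivSqZeroExt.snd (hij x hxS')
  rw [hm, hm] at h2
  have h3 : c * (TrivSqZeroExt.snd (u x) - TrivSqZeroExt.snd (v x)) =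
      d * (TrivSqZeroExt.snd (u x) - TrivSqZeroExt.snd (v x)) := add_left_cancel h2
  have h4 : TrivSqZeroExt.snd (u x) - TrivSqZeroExt.snd (v x) ≠ 0 := sub_ne_zero.mpr hne
  have h5 : c = d := mul_right_cancel₀ h4 h3
  rw [h5]


/-- Induction: after `j` greedy steps either the chosen elements generate, or there is a
separated family of size `|k| ^ j`. -/
theorem exists_partial_generators [Finite (ResidueField 𝒪)] (hA : FinTest 𝒪 A) (j : ℕ) :
    letI := dualNumberAlgebra 𝒪
    ∃ x : Fin j → A, (∀ i, x i ∈ maximalIdeal A) ∧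
      (Algebra.adjoin 𝒪 (Set.range x) = ⊤ ∨
        ∃ (ι : Type) (F : ι → A →ₐ[𝒪] DualNumber (ResidueField 𝒪)),
          Nat.card ι = Nat.card (ResidueField 𝒪) ^ j ∧ SepOn (Algebra.adjoin 𝒪 (Set.range x)) F) := by
  letI := dualNumberAlgebra 𝒪
  induction j with
  | zero =>
    obtain ⟨resk, -, -⟩ := exists_resk hA
    refine ⟨fun i => i.elim0, fun i => i.elim0, Or.inr ⟨Unit, fun _ =>
      dualHom resk 0 (by simp) (by simp), by simp, fun i j _ => rfl⟩⟩
  | succ j ih =>
    obtain ⟨x, hx, h⟩ := ih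
    have hmono : ∀ x' : A, Algebra.adjoin 𝒪 (Set.range x) ≤
        Algebra.adjoin 𝒪 (Set.range (Fin.snoc x x' : Fin (j + 1) → A)) := by
      intro x'
      refine Algebra.adjoin_mono ?_
      rintro _ ⟨i, rfl⟩
      exact ⟨Fin.castSucc i, by simp⟩
    have hmem : ∀ x' : A, x' ∈ Algebra.adjoin 𝒪 (Set.range (Fin.snoc x x' : Fin (j + 1) → A)) := by
      intro x'
      exact Algebra.subset_adjoin ⟨Fin.last j, by simp⟩
    have hmax : ∀ x' : A, x' ∈ maximalIdeal A →
        ∀ i, (Fin.snoc x x' : Fin (j + 1) → A) i ∈ maximalIdeal A := by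
      intro x' hx' i
      refine Fin.lastCases ?_ (fun i => ?_) i
      · simpa using hx'
      · simpa using hx i
    by_cases htop : Algebra.adjoin 𝒪 (Set.range x) = ⊤
    · refine ⟨Fin.snoc x 0, hmax 0 (Ideal.zero_mem _), Or.inl ?_⟩
      exact top_unique (htop ▸ hmono 0)
    · rcases h with h | ⟨ι, F, hcard, hF⟩
      · exact absurd h htop
      · obtain ⟨x', F', hx', hF'⟩ := exists_step hA _ htop F hF
        refine ⟨Fin.snoc x x', hmax x' hx', Or.inr ⟨ι × ResidueField 𝒪, F', ?_,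
          hF' _ (hmono x') (hmem x')⟩⟩
        rw [Nat.card_prod, hcard, pow_succ]

/-- **Generators from a bound on the number of tangent vectors**: a finite test algebra with
fewer than `|k| ^ (r + 1)` homs to the dual numbers is generated by `r` elements of its
maximal ideal. -/
theorem exists_generators [Finite (ResidueField 𝒪)] (hA : FinTest 𝒪 A) (r : ℕ)
    (hcard : letI := dualNumberAlgebra 𝒪;
      Nat.card (A →ₐ[𝒪] DualNumber (ResidueField 𝒪)) < Nat.card (ResidueField 𝒪) ^ (r + 1)) :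
    ∃ x : Fin r → A, (∀ i, x i ∈ maximalIdeal A) ∧ Algebra.adjoin 𝒪 (Set.range x) = ⊤ := by
  letI := dualNumberAlgebra 𝒪
  haveI := hA.finite
  haveI : Finite (DualNumber (ResidueField 𝒪)) := (finTest_dualNumber (𝒪 := 𝒪)).finite
  haveI : Finite (A →ₐ[𝒪] DualNumber (ResidueField 𝒪)) := DFunLike.finite _
  obtain ⟨x, hx, h⟩ := exists_partial_generators hA r
  refine ⟨x, hx, ?_⟩
  by_contra htop
  rcases h with h | ⟨ι, F, hι, hF⟩
  · exact htop h
  · obtain ⟨x', F', -, hF'⟩ := exists_step hA _ htop F hF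
    have hinj : Function.Injective F' := (hF' ⊤ le_top Algebra.mem_top).injective
    have h1 := Nat.card_le_card_of_injective F' hinj
    rw [Nat.card_prod, hι, ← pow_succ] at h1
    exact absurd hcard (not_lt.mpr h1)

end Fermat.Agent.S56.Ring
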