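/-
S56 (Taylor–Wiles primes), block (I), ring side, part 2 (helper14).

A complete noetherian local `𝒪`-algebra `R` (local structure map, residue field generated by
`𝒪`, `k` finite) with fewer than `|k| ^ (r + 1)` `𝒪`-algebra homs to the dual numbers `k[ε]`
is a quotient of `𝒪⟦X₁,…,X_r⟧`.  The instance list is exactly the field list of the frozen
`GaloisRep.DeformationRingData`, so `DQ.R` plugs in verbatim.
-/
import Fermat.Agent.S56.Ring.DualCount
import Fermat.Agent.S53.CompleteLocal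
import Fermat.Agent.S53.PowerSeries
import Fermat.Agent.S53.PSComplete
import Fermat.Agent.S53.Universal

set_option autoImplicit false
set_option linter.unusedSectionVars false
set_option linter.style.haveILetI false

noncomputable section

namespace Fermat.Agent.S56.Ring

open IsLocalRing Fermat.Agent.S53

section DualNumber

variable {𝒪 : Type} [CommRing 𝒪] [IsLocalRing 𝒪]

/-- In the dual numbers the product of two non-units vanishes. -/
theorem dualNumber_mul_eq_zero {k : Type} [Field k] {a b : DualNumber k}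
    (ha : a ∈ maximalIdeal (DualNumber k)) (hb : b ∈ maximalIdeal (DualNumber k)) : a * b = 0 := by
  have hfst : ∀ {c : DualNumber k}, c ∈ maximalIdeal (DualNumber k) → TrivSqZeroExt.fst c = 0 := by
    intro c hc
    by_contra hne
    rw [mem_maximalIdeal, mem_nonunits_iff, TrivSqZeroExt.isUnit_iff_isUnit_fst] at hc
    exact hc (isUnit_iff_ne_zero.mpr hne)
  ext
  · simp [hfst ha]
  · simp [hfst ha, hfst hb]

end DualNumber

variable {𝒪 : Type} [CommRing 𝒪] [IsLocalRing 𝒪] [Finite (ResidueField 𝒪)]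
variable {R : Type} [CommRing R] [IsLocalRing R] [Algebra 𝒪 R]

/-- Every `𝒪`-algebra hom from a local `𝒪`-algebra to the dual numbers kills the square of the
maximal ideal. -/
theorem maximalIdeal_sq_le_ker
    (φ : letI := dualNumberAlgebra 𝒪; R →ₐ[𝒪] DualNumber (ResidueField 𝒪)) :
    letI := dualNumberAlgebra 𝒪
    maximalIdeal R ^ 2 ≤ RingHom.ker (φ : R →+* DualNumber (ResidueField 𝒪)) := by
  letI := dualNumberAlgebra 𝒪
  haveI : IsLocalHom (φ : R →+* DualNumber (ResidueField 𝒪)) :=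
    isLocalHom_algHom_of_residue_surjective (finTest_dualNumber (𝒪 := 𝒪)).residue_surjective φ
  have hmem : ∀ a ∈ maximalIdeal R, φ a ∈ maximalIdeal (DualNumber (ResidueField 𝒪)) := by
    intro a ha
    rw [mem_maximalIdeal, mem_nonunits_iff] at ha ⊢
    intro hu
    exact ha (isUnit_of_map_unit (φ : R →+* DualNumber (ResidueField 𝒪)) a hu)
  rw [pow_two, Ideal.mul_le]
  intro a ha b hb
  rw [RingHom.mem_ker]
  change φ (a * b) = 0
  rw [map_mul]
  exact dualNumber_mul_eq_zero (hmem a ha) (hmem b hb)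

/-- Homs to the dual numbers from `R` and from `R ⧸ 𝔪²` are in bijection. -/
theorem card_algHom_quotient_sq :
    letI := dualNumberAlgebra 𝒪
    Nat.card ((R ⧸ maximalIdeal R ^ 2) →ₐ[𝒪] DualNumber (ResidueField 𝒪)) =
      Nat.card (R →ₐ[𝒪] DualNumber (ResidueField 𝒪)) := by
  letI := dualNumberAlgebra 𝒪
  refine Nat.card_eq_of_bijective
    (fun u => u.comp (Ideal.Quotient.mkₐ 𝒪 (maximalIdeal R ^ 2))) ⟨?_, ?_⟩
  · intro u v huv
    refine AlgHom.ext fun x => ?_
    obtain ⟨y, rfl⟩ := Ideal.Quotient.mk_surjective x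
    exact congrArg (fun w => w y) huv
  · intro φ
    have hφ : ∀ a ∈ maximalIdeal R ^ 2, φ a = 0 := fun a ha => maximalIdeal_sq_le_ker φ ha
    refine ⟨Ideal.Quotient.liftₐ (maximalIdeal R ^ 2) φ hφ, ?_⟩
    refine AlgHom.ext fun x => ?_
    change Ideal.Quotient.liftₐ (maximalIdeal R ^ 2) φ hφ (Ideal.Quotient.mk _ x) = φ x
    exact Ideal.Quotient.liftₐ_apply _ _ _ _


section Main

variable {𝒪 : Type} [CommRing 𝒪] [IsLocalRing 𝒪] [Finite (ResidueField 𝒪)]
variable {R : Type} [CommRing R] [IsLocalRing R] [IsNoetherianRing R] [Algebra 𝒪 R]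

/-- **Generators of the maximal ideal from the tangent count**: `𝔪_R = (x₁,…,x_r) + 𝔪_𝒪 R`. -/
theorem exists_maximalIdeal_generators (hloc : IsLocalHom (algebraMap 𝒪 R))
    (hres : Function.Surjective (IsLocalRing.residue R ∘ algebraMap 𝒪 R)) (r : ℕ)
    (hcard : letI := dualNumberAlgebra 𝒪;
      Nat.card (R →ₐ[𝒪] DualNumber (ResidueField 𝒪)) < Nat.card (ResidueField 𝒪) ^ (r + 1)) :
    ∃ x : Fin r → R, (∀ i, x i ∈ maximalIdeal R) ∧
      maximalIdeal R = Ideal.span (Set.range x) ⊔ (maximalIdeal 𝒪).map (algebraMap 𝒪 R) := by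
  letI := dualNumberAlgebra 𝒪
  haveI := hloc
  have hne : maximalIdeal R ^ 2 ≠ ⊤ := maximalIdeal_pow_ne_top (by norm_num)
  haveI := isLocalRing_quotient _ hne
  have hA : FinTest 𝒪 (R ⧸ maximalIdeal R ^ 2) := quotient_finTest hloc hres _ hne 2 le_rfl
  have hcard₂ : Nat.card ((R ⧸ maximalIdeal R ^ 2) →ₐ[𝒪] DualNumber (ResidueField 𝒪)) <
      Nat.card (ResidueField 𝒪) ^ (r + 1) := by
    rw [card_algHom_quotient_sq]; exact hcard
  obtain ⟨xb, hxb, hadj⟩ := exists_generators hA r hcard₂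
  choose x hx using fun i => Ideal.Quotient.mk_surjective (xb i)
  have hxm : ∀ i, x i ∈ maximalIdeal R := fun i =>
    (mk_mem_maximalIdeal_quotient_iff _ hne (x i)).mp (by rw [hx i]; exact hxb i)
  refine ⟨x, hxm, ?_⟩
  have h𝔫 : (maximalIdeal 𝒪).map (algebraMap 𝒪 R) ≤ maximalIdeal R :=
    ((IsLocalRing.local_hom_TFAE (algebraMap 𝒪 R)).out 0 2).mp hloc
  have hspan : Ideal.span (Set.range x) ≤ maximalIdeal R := by
    rw [Ideal.span_le]; rintro _ ⟨i, rfl⟩; exact hxm i
  refine le_antisymm ?_ (sup_le hspan h𝔫)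
  -- every element of the quotient is `c + (element of the span)`
  set I : Ideal (R ⧸ maximalIdeal R ^ 2) := Ideal.span (Set.range xb) with hI
  have hIm : I ≤ maximalIdeal (R ⧸ maximalIdeal R ^ 2) := by
    rw [hI, Ideal.span_le]; rintro _ ⟨i, rfl⟩; exact hxb i
  have hP : ∀ a : R ⧸ maximalIdeal R ^ 2, ∃ c : 𝒪, a - algebraMap 𝒪 _ c ∈ I := by
    intro a
    have ha : a ∈ Algebra.adjoin 𝒪 (Set.range xb) := by rw [hadj]; exact Algebra.mem_top
    induction ha using Algebra.adjoin_induction with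
    | mem y hy =>
      exact ⟨0, by rw [map_zero, sub_zero]; exact Ideal.subset_span hy⟩
    | algebraMap c => exact ⟨c, by rw [sub_self]; exact Ideal.zero_mem _⟩
    | add y z _ _ hy hz =>
      obtain ⟨c, hc⟩ := hy
      obtain ⟨d, hd⟩ := hz
      refine ⟨c + d, ?_⟩
      have : y + z - algebraMap 𝒪 _ (c + d) =
          (y - algebraMap 𝒪 _ c) + (z - algebraMap 𝒪 _ d) := by rw [map_add]; ring
      rw [this]
      exact Ideal.add_mem _ hc hd
    | mul y z _ _ hy hz =>
      obtain ⟨c, hc⟩ := hy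
      obtain ⟨d, hd⟩ := hz
      refine ⟨c * d, ?_⟩
      have : y * z - algebraMap 𝒪 _ (c * d) =
          (y - algebraMap 𝒪 _ c) * z + algebraMap 𝒪 _ c * (z - algebraMap 𝒪 _ d) := by
        rw [map_mul]; ring
      rw [this]
      exact Ideal.add_mem _ (Ideal.mul_mem_right _ _ hc) (Ideal.mul_mem_left _ _ hd)
  have hImap : I = (Ideal.span (Set.range x)).map (Ideal.Quotient.mk (maximalIdeal R ^ 2)) := by
    rw [Ideal.map_span, hI]
    congr 1
    ext y
    constructor
    · rintro ⟨i, rfl⟩; exact ⟨x i, ⟨i, rfl⟩, hx i⟩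
    · rintro ⟨_, ⟨i, rfl⟩, rfl⟩; exact ⟨i, (hx i).symm⟩
  -- Nakayama
  have key : maximalIdeal R ≤
      (Ideal.span (Set.range x) ⊔ (maximalIdeal 𝒪).map (algebraMap 𝒪 R)) ⊔
        maximalIdeal R • maximalIdeal R := by
    intro m hm
    obtain ⟨c, hc⟩ := hP (Ideal.Quotient.mk _ m)
    have hmk : Ideal.Quotient.mk (maximalIdeal R ^ 2) m ∈ maximalIdeal (R ⧸ maximalIdeal R ^ 2) :=
      (mk_mem_maximalIdeal_quotient_iff _ hne m).mpr hm
    have hcm : algebraMap 𝒪 (R ⧸ maximalIdeal R ^ 2) c ∈ maximalIdeal (R ⧸ maximalIdeal R ^ 2) := by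
      have := Ideal.sub_mem _ hmk (hIm hc)
      rwa [sub_sub_cancel] at this
    have hc𝒪 : c ∈ maximalIdeal 𝒪 := by
      haveI := hA.isLocalHom
      rw [mem_maximalIdeal, mem_nonunits_iff] at hcm ⊢
      exact fun hu => hcm (hu.map _)
    have h1 : Ideal.Quotient.mk (maximalIdeal R ^ 2) (m - algebraMap 𝒪 R c) ∈
        (Ideal.span (Set.range x)).map (Ideal.Quotient.mk (maximalIdeal R ^ 2)) := by
      rw [← hImap, map_sub]
      exact hc
    obtain ⟨y, hy, hym⟩ := (Ideal.mem_map_iff_of_surjective _ Ideal.Quotient.mk_surjective).mp h1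
    have h2 : m - algebraMap 𝒪 R c - y ∈ maximalIdeal R ^ 2 := by
      rw [← Ideal.Quotient.eq_zero_iff_mem, map_sub, hym, sub_self]
    have h3 : m = (y + algebraMap 𝒪 R c) + (m - algebraMap 𝒪 R c - y) := by ring
    rw [h3]
    refine Submodule.add_mem _ (Submodule.mem_sup_left ?_) (Submodule.mem_sup_right ?_)
    · exact Submodule.add_mem _ (Submodule.mem_sup_left hy)
        (Submodule.mem_sup_right (Ideal.mem_map_of_mem _ hc𝒪))
    · rw [Ideal.smul_eq_mul, ← pow_two]; exact h2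
  exact Submodule.le_of_le_smul_of_le_jacobson_bot (IsNoetherian.noetherian _)
    (I := maximalIdeal R) (IsLocalRing.jacobson_eq_maximalIdeal ⊥ bot_ne_top).ge key

end Main

section Limit

variable {𝒪 : Type} [CommRing 𝒪] [IsLocalRing 𝒪] [Finite (ResidueField 𝒪)]
variable {R : Type} [CommRing R] [IsLocalRing R] [IsNoetherianRing R]
  [IsAdicComplete (maximalIdeal R) R] [Algebra 𝒪 R]

/-- Evaluation `𝒪⟦X₁,…,X_r⟧ → R`, `Xᵢ ↦ xᵢ ∈ 𝔪_R`, into a complete noetherian local `𝒪`-algebra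
with finite residue field generated by `𝒪`. -/
theorem exists_algHom_mvPowerSeries (hloc : IsLocalHom (algebraMap 𝒪 R))
    (hres : Function.Surjective (IsLocalRing.residue R ∘ algebraMap 𝒪 R)) {r : ℕ}
    (x : Fin r → R) (hx : ∀ i, x i ∈ maximalIdeal R) :
    ∃ γ : MvPowerSeries (Fin r) 𝒪 →ₐ[𝒪] R, ∀ i, γ (MvPowerSeries.X i) = x i := by
  have hne : ∀ n : ℕ, maximalIdeal R ^ (n + 1) ≠ ⊤ := fun n =>
    maximalIdeal_pow_ne_top (Nat.succ_le_succ (Nat.zero_le n))
  have key : ∀ n : ℕ, ∃ g : MvPowerSeries (Fin r) 𝒪 →ₐ[𝒪] R ⧸ maximalIdeal R ^ (n + 1),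
      ∀ i, g (MvPowerSeries.X i) = Ideal.Quotient.mk (maximalIdeal R ^ (n + 1)) (x i) := by
    intro n
    haveI := isLocalRing_quotient _ (hne n)
    haveI := (quotient_finTest hloc hres _ (hne n) (n + 1) le_rfl).finite
    exact exists_eval_of_finite (fun i => Ideal.Quotient.mk (maximalIdeal R ^ (n + 1)) (x i))
      (fun i => (mk_mem_maximalIdeal_quotient_iff _ (hne n) (x i)).mpr (hx i))
  choose g hg using key
  have hcompat : ∀ {m n : ℕ} (hle : m ≤ n),
      (Ideal.Quotient.factorₐ 𝒪 (Ideal.pow_le_pow_right (Nat.succ_le_succ hle))).comp (g n) =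
        g m := by
    intro m n hle
    haveI := isLocalRing_quotient _ (hne m)
    haveI := (quotient_finTest hloc hres _ (hne m) (m + 1) le_rfl).finite
    refine eval_ext_of_finite _ _ fun i => ?_
    rw [AlgHom.comp_apply, hg n i, hg m i]
    rfl
  let f : ∀ n : ℕ, MvPowerSeries (Fin r) 𝒪 →ₐ[𝒪] R ⧸ maximalIdeal R ^ n := fun n =>
    (Ideal.Quotient.factorₐ 𝒪 (Ideal.pow_le_pow_right (Nat.le_succ n))).comp (g n)
  have hf : ∀ {m n : ℕ} (hle : m ≤ n),
      (Ideal.Quotient.factorₐ 𝒪 (Ideal.pow_le_pow_right hle)).comp (f n) = f m := by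
    intro m n hle
    show (Ideal.Quotient.factorₐ 𝒪 _).comp ((Ideal.Quotient.factorₐ 𝒪 _).comp (g n)) =
      (Ideal.Quotient.factorₐ 𝒪 _).comp (g m)
    rw [← hcompat hle, ← AlgHom.comp_assoc, ← AlgHom.comp_assoc, Ideal.Quotient.factorₐ_comp,
      Ideal.Quotient.factorₐ_comp]
  refine ⟨IsAdicComplete.liftAlgHom (maximalIdeal R) f hf, fun i => ?_⟩
  apply eq_of_forall_mk_eq (maximalIdeal R)
  intro n
  have h1 : Ideal.Quotient.mk (maximalIdeal R ^ n)
      ((IsAdicComplete.liftAlgHom (maximalIdeal R) f hf) (MvPowerSeries.X i)) =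
        f n (MvPowerSeries.X i) :=
    IsAdicComplete.mk_liftAlgHom (maximalIdeal R) f hf n (MvPowerSeries.X i)
  rw [h1]
  show Ideal.Quotient.factorₐ 𝒪 (Ideal.pow_le_pow_right (Nat.le_succ n))
    ((g n) (MvPowerSeries.X i)) = Ideal.Quotient.mk (maximalIdeal R ^ n) (x i)
  rw [hg n i]
  rfl

variable [IsNoetherianRing 𝒪] [IsAdicComplete (maximalIdeal 𝒪) 𝒪]

/-- An `𝒪`-algebra hom `𝒪⟦X₁,…,X_r⟧ → R` whose values on the variables generate `𝔪_R` modulo
`𝔪_𝒪 R` is surjective (complete Nakayama). -/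
theorem surjective_of_maximalIdeal_eq
    (hres : Function.Surjective (IsLocalRing.residue R ∘ algebraMap 𝒪 R)) {r : ℕ}
    (γ : MvPowerSeries (Fin r) 𝒪 →ₐ[𝒪] R)
    (hgen : maximalIdeal R = Ideal.span (Set.range fun i => γ (MvPowerSeries.X i)) ⊔
      (maximalIdeal 𝒪).map (algebraMap 𝒪 R)) :
    Function.Surjective γ := by
  have hmap : (maximalIdeal (MvPowerSeries (Fin r) 𝒪)).map
      (γ : MvPowerSeries (Fin r) 𝒪 →+* R) = maximalIdeal R := by
    rw [PSC.maximalIdeal_mvPowerSeries_eq_sup, Ideal.map_sup, Ideal.map_span, Ideal.map_map, hgen]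
    congr 1
    · congr 1
      ext y
      constructor
      · rintro ⟨_, ⟨i, rfl⟩, rfl⟩; exact ⟨i, rfl⟩
      · rintro ⟨i, rfl⟩; exact ⟨_, ⟨i, rfl⟩, rfl⟩
    · congr 1
      ext c
      show γ (MvPowerSeries.C c) = algebraMap 𝒪 R c
      exact γ.commutes c
  haveI : IsPrecomplete (maximalIdeal (MvPowerSeries (Fin r) 𝒪)) (MvPowerSeries (Fin r) 𝒪) :=
    (PSC.isAdicComplete_mvPowerSeries (σ := Fin r) (R := 𝒪)).toIsPrecomplete
  haveI : IsHausdorff ((maximalIdeal (MvPowerSeries (Fin r) 𝒪)).map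
      (γ : MvPowerSeries (Fin r) 𝒪 →+* R)) R := by
    rw [hmap]; infer_instance
  refine surjective_of_mk_map_comp_surjective (γ : MvPowerSeries (Fin r) 𝒪 →+* R)
    (I := maximalIdeal (MvPowerSeries (Fin r) 𝒪)) ?_
  rw [hmap]
  intro y
  obtain ⟨c, hc⟩ := hres y
  refine ⟨MvPowerSeries.C c, ?_⟩
  rw [RingHom.comp_apply]
  show Ideal.Quotient.mk (maximalIdeal R) (γ (MvPowerSeries.C c)) = y
  have : γ (MvPowerSeries.C c) = algebraMap 𝒪 R c := γ.commutes c
  rw [this]
  exact hc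

/-- **`R` is a quotient of `𝒪⟦X₁,…,X_r⟧` as soon as it has fewer than `|k| ^ (r + 1)` dual-number
points.**  The instance list is exactly the field list of the frozen
`GaloisRep.DeformationRingData`. -/
theorem exists_surjective_mvPowerSeries (hloc : IsLocalHom (algebraMap 𝒪 R))
    (hres : Function.Surjective (IsLocalRing.residue R ∘ algebraMap 𝒪 R)) (r : ℕ)
    (hcard : letI := dualNumberAlgebra 𝒪;
      Nat.card (R →ₐ[𝒪] DualNumber (ResidueField 𝒪)) < Nat.card (ResidueField 𝒪) ^ (r + 1)) :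
    ∃ γ : MvPowerSeries (Fin r) 𝒪 →ₐ[𝒪] R, Function.Surjective γ := by
  obtain ⟨x, hx, hgen⟩ := exists_maximalIdeal_generators hloc hres r hcard
  obtain ⟨γ, hγ⟩ := exists_algHom_mvPowerSeries hloc hres x hx
  refine ⟨γ, surjective_of_maximalIdeal_eq hres γ ?_⟩
  have : (fun i => γ (MvPowerSeries.X i)) = x := funext hγ
  rw [this]
  exact hgen

end Limit

end Fermat.Agent.S56.Ring
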