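/-
S56 (Taylor–Wiles primes), block (I), ring side, part 3 (helper14).

For an abstract universal deformation ring `DQ : GaloisRep.DeformationRingData 𝒪 ρbar 𝒟`:

* `algHom_eq_of_isEquiv`: two `𝒪`-algebra homs `φ, φ' : DQ.R → A` whose push-forwards of the
  universal representation are equivalent coincide, as soon as ONE of the push-forwards is of
  type `𝒟` (the uniqueness clause of the frozen `universal`);
* over the dual numbers `k[ε]`: there is at most one non-surjective hom, so if the condition `𝒟`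
  is stable under the surjections `DQ.R ↠ k[ε]` then
  `#Hom_𝒪(DQ.R, k[ε]) ≤ #(classes of type-𝒟 lifts to k[ε]) + 1`;
* consequently `DQ.R` is a quotient of `𝒪⟦X₁,…,X_r⟧` when there are at most `|k| ^ r` classes
  (`|k| ≥ 3`).
-/
import Fermat.Agent.S56.Ring.Surj
import Fermat.Agent.S53.Tangent

set_option autoImplicit false
set_option linter.unusedSectionVars false
set_option linter.style.haveILetI false

noncomputable section

namespace Fermat.Agent.S56.Ring

open IsLocalRing Fermat.Agent.S53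

/-! ### a ring with a nilpotent ideal is complete for it -/

section Nilpotent

theorem isAdicComplete_of_pow_eq_bot {S : Type*} [CommRing S] (I : Ideal S) {N : ℕ}
    (h : I ^ N = ⊥) : IsAdicComplete I S := by
  have hbot : (I ^ N • ⊤ : Submodule S S) = ⊥ := by rw [h]; exact Submodule.bot_smul _
  refine { toIsHausdorff := ⟨fun x hx => ?_⟩, toIsPrecomplete := ⟨fun f hf => ?_⟩ }
  · have h1 := hx N
    rw [hbot, SModEq.bot] at h1
    exact h1
  · refine ⟨f N, fun n => ?_⟩
    rcases le_total n N with hn | hn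
    · exact hf hn
    · have h1 := hf hn
      rw [hbot, SModEq.bot] at h1
      rw [h1]

variable (k : Type) [Field k]

theorem maximalIdeal_dualNumber_sq : maximalIdeal (DualNumber k) ^ 2 = ⊥ := by
  rw [eq_bot_iff, pow_two, Ideal.mul_le]
  intro a ha b hb
  rw [Ideal.mem_bot]
  exact dualNumber_mul_eq_zero ha hb

theorem isAdicComplete_dualNumber :
    IsAdicComplete (maximalIdeal (DualNumber k)) (DualNumber k) :=
  isAdicComplete_of_pow_eq_bot _ (maximalIdeal_dualNumber_sq k)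

end Nilpotent

/-! ### homs to the dual numbers out of a local `𝒪`-algebra -/

section DualHom

variable {𝒪 : Type} [CommRing 𝒪] [IsLocalRing 𝒪] [Finite (ResidueField 𝒪)]
variable {R : Type} [CommRing R] [IsLocalRing R] [Algebra 𝒪 R]

/-- The `k`-component of a hom `R → k[ε]` is the same for all homs. -/
theorem fst_algHom_dualNumber_eq
    (hres : Function.Surjective (IsLocalRing.residue R ∘ algebraMap 𝒪 R))
    (φ φ' : letI := dualNumberAlgebra 𝒪; R →ₐ[𝒪] DualNumber (ResidueField 𝒪)) (x : R) :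
    TrivSqZeroExt.fst (φ x) = TrivSqZeroExt.fst (φ' x) := by
  letI := dualNumberAlgebra 𝒪
  have key : ∀ (ψ : R →ₐ[𝒪] DualNumber (ResidueField 𝒪)) (c : 𝒪),
      IsLocalRing.residue R (algebraMap 𝒪 R c) = IsLocalRing.residue R x →
        TrivSqZeroExt.fst (ψ x) = IsLocalRing.residue 𝒪 c := by
    intro ψ c hc
    haveI : IsLocalHom (ψ : R →+* DualNumber (ResidueField 𝒪)) :=
      isLocalHom_algHom_of_residue_surjective (finTest_dualNumber (𝒪 := 𝒪)).residue_surjective ψ
    have h1 : x - algebraMap 𝒪 R c ∈ maximalIdeal R := by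
      rw [← residue_eq_zero_iff, map_sub, sub_eq_zero]
      exact hc.symm
    have h2 : ψ (x - algebraMap 𝒪 R c) ∈ maximalIdeal (DualNumber (ResidueField 𝒪)) := by
      rw [mem_maximalIdeal, mem_nonunits_iff] at h1 ⊢
      intro hu
      exact h1 (isUnit_of_map_unit (ψ : R →+* DualNumber (ResidueField 𝒪)) _ hu)
    have h3 : TrivSqZeroExt.fst (ψ (x - algebraMap 𝒪 R c)) = 0 := by
      by_contra hne
      rw [mem_maximalIdeal, mem_nonunits_iff, TrivSqZeroExt.isUnit_iff_isUnit_fst] at h2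
      exact h2 (isUnit_iff_ne_zero.mpr hne)
    rw [map_sub, TrivSqZeroExt.fst_sub, sub_eq_zero, ψ.commutes,
      dualNumberAlgebra_algebraMap_apply] at h3
    rw [h3]
    rfl
  obtain ⟨c, hc⟩ := hres (IsLocalRing.residue R x)
  rw [key φ c hc, key φ' c hc]

/-- A hom `R → k[ε]` with a nonzero `ε`-component somewhere is surjective. -/
theorem algHom_dualNumber_surjective_of_snd_ne_zero
    (φ : letI := dualNumberAlgebra 𝒪; R →ₐ[𝒪] DualNumber (ResidueField 𝒪)) (x₀ : R)
    (hx₀ : TrivSqZeroExt.snd (φ x₀) ≠ 0) : Function.Surjective φ := by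
  letI := dualNumberAlgebra 𝒪
  intro y
  set b := TrivSqZeroExt.snd (φ x₀) with hb
  obtain ⟨c₀, hc₀⟩ := IsLocalRing.residue_surjective (R := 𝒪) (TrivSqZeroExt.fst (φ x₀))
  obtain ⟨c₁, hc₁⟩ := IsLocalRing.residue_surjective (R := 𝒪) (TrivSqZeroExt.snd y * b⁻¹)
  obtain ⟨c₂, hc₂⟩ := IsLocalRing.residue_surjective (R := 𝒪) (TrivSqZeroExt.fst y)
  have hC : ∀ c : 𝒪, φ (algebraMap 𝒪 R c) = TrivSqZeroExt.inl (IsLocalRing.residue 𝒪 c) := by
    intro c
    rw [φ.commutes, dualNumberAlgebra_algebraMap_apply]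
  refine ⟨algebraMap 𝒪 R c₂ + algebraMap 𝒪 R c₁ * (x₀ - algebraMap 𝒪 R c₀), ?_⟩
  rw [map_add, map_mul, map_sub, hC, hC, hC, hc₀, hc₁, hc₂]
  ext
  · simp
  · simp only [TrivSqZeroExt.snd_add, TrivSqZeroExt.snd_inl, TrivSqZeroExt.snd_mul,
      TrivSqZeroExt.fst_inl, TrivSqZeroExt.snd_sub, TrivSqZeroExt.fst_sub, zero_add, sub_zero,
      sub_self, smul_eq_mul, MulOpposite.smul_eq_mul_unop, MulOpposite.unop_op, mul_zero,
      add_zero]
    rw [← hb]
    field_simp

/-- There is at most one non-surjective hom `R → k[ε]`. -/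
theorem algHom_dualNumber_eq_of_not_surjective
    (hres : Function.Surjective (IsLocalRing.residue R ∘ algebraMap 𝒪 R))
    (φ φ' : letI := dualNumberAlgebra 𝒪; R →ₐ[𝒪] DualNumber (ResidueField 𝒪))
    (h : ¬ Function.Surjective φ) (h' : ¬ Function.Surjective φ') : φ = φ' := by
  letI := dualNumberAlgebra 𝒪
  refine AlgHom.ext fun x => ?_
  ext
  · exact fst_algHom_dualNumber_eq hres φ φ' x
  · have h1 : TrivSqZeroExt.snd (φ x) = 0 := by
      by_contra hne
      exact h (algHom_dualNumber_surjective_of_snd_ne_zero φ x hne)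
    have h2 : TrivSqZeroExt.snd (φ' x) = 0 := by
      by_contra hne
      exact h' (algHom_dualNumber_surjective_of_snd_ne_zero φ' x hne)
    rw [h1, h2]

end DualHom

/-! ### the universal deformation ring -/

section Universal

variable {𝒪 : Type} [CommRing 𝒪] [IsDomain 𝒪] [IsDiscreteValuationRing 𝒪]
  [IsAdicComplete (maximalIdeal 𝒪) 𝒪]
  {ρbar : ResidualGaloisRep (ResidueField 𝒪)}
  {𝒟 : ∀ ⦃A : Type⦄ [CommRing A] [IsLocalRing A] [Algebra 𝒪 A], GaloisRepAdic A → Prop}
  (DQ : GaloisRep.DeformationRingData 𝒪 ρbar 𝒟)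

/-- Every push-forward of the universal representation is a lift of `ρbar`. -/
theorem residual_baseChangeAlong_isEquiv {A : Type} [CommRing A] [IsLocalRing A] [Algebra 𝒪 A]
    [IsLocalHom (algebraMap 𝒪 A)] (φ : DQ.R →ₐ[𝒪] A) (hφ : IsLocalHom (φ : DQ.R →+* A)) :
    (DQ.ρ.baseChangeAlong (φ : DQ.R →+* A) hφ).residual.IsEquiv
      (ρbar.baseChangeAlong (ResidueField.map (algebraMap 𝒪 A))) := by
  obtain ⟨M, hM, hs, ⟨e⟩⟩ := exists_strict_of_residual_isEquiv ρbar DQ.ρ DQ.residual_isEquiv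
  have hM' : MatCont (mapMat (φ : DQ.R →+* A) M) := matCont_mapMat (φ : DQ.R →+* A) hφ M hM
  have hs' : Strict (resMat ρbar) (mapMat (φ : DQ.R →+* A) M) := hs.map φ hφ
  obtain ⟨e₂⟩ := ofMat_baseChangeAlong_isEquiv (φ : DQ.R →+* A) hφ M hM hM'
  obtain ⟨e₃⟩ := residual_isEquiv_of_strict ρbar _ hM' hs'
  exact ⟨(((e.baseChangeAlong (φ : DQ.R →+* A) hφ).trans e₂).residual).trans e₃⟩

/-- **Uniqueness clause of the universal property, in usable form**: homs with equivalent
push-forwards, one of which is of type `𝒟`, coincide. -/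
theorem algHom_eq_of_isEquiv {A : Type} [CommRing A] [IsLocalRing A] [IsNoetherianRing A]
    [IsAdicComplete (maximalIdeal A) A] [Algebra 𝒪 A] [IsLocalHom (algebraMap 𝒪 A)]
    (hres : Function.Surjective (IsLocalRing.residue A ∘ algebraMap 𝒪 A))
    (φ φ' : DQ.R →ₐ[𝒪] A) (hφ : IsLocalHom (φ : DQ.R →+* A))
    (hφ' : IsLocalHom (φ' : DQ.R →+* A))
    (h𝒟 : 𝒟 (DQ.ρ.baseChangeAlong (φ : DQ.R →+* A) hφ))
    (he : (DQ.ρ.baseChangeAlong (φ' : DQ.R →+* A) hφ').IsEquiv
      (DQ.ρ.baseChangeAlong (φ : DQ.R →+* A) hφ)) : φ' = φ := by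
  obtain ⟨ψ, -, huniq⟩ := DQ.universal A hres _ h𝒟 (residual_baseChangeAlong_isEquiv DQ φ hφ)
  rw [huniq φ' ⟨hφ', he⟩, huniq φ ⟨hφ, ⟨GaloisRepAdic.Equiv.refl _⟩⟩]

variable [Finite (ResidueField 𝒪)]

/-- Every `𝒪`-algebra hom `DQ.R → k[ε]` is local. -/
theorem isLocalHom_algHom_dualNumber
    (φ : letI := dualNumberAlgebra 𝒪; DQ.R →ₐ[𝒪] DualNumber (ResidueField 𝒪)) :
    letI := dualNumberAlgebra 𝒪
    IsLocalHom (φ : DQ.R →+* DualNumber (ResidueField 𝒪)) :=
  letI := dualNumberAlgebra 𝒪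
  isLocalHom_algHom_of_residue_surjective (finTest_dualNumber (𝒪 := 𝒪)).residue_surjective φ

/-- Uniqueness over the dual numbers. -/
theorem algHom_dualNumber_eq_of_isEquiv
    (φ φ' : letI := dualNumberAlgebra 𝒪; DQ.R →ₐ[𝒪] DualNumber (ResidueField 𝒪))
    (h𝒟 : letI := dualNumberAlgebra 𝒪;
      𝒟 (DQ.ρ.baseChangeAlong (φ : DQ.R →+* DualNumber (ResidueField 𝒪))
        (isLocalHom_algHom_dualNumber DQ φ)))
    (he : letI := dualNumberAlgebra 𝒪;
      (DQ.ρ.baseChangeAlong (φ' : DQ.R →+* DualNumber (ResidueField 𝒪))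
        (isLocalHom_algHom_dualNumber DQ φ')).IsEquiv
      (DQ.ρ.baseChangeAlong (φ : DQ.R →+* DualNumber (ResidueField 𝒪))
        (isLocalHom_algHom_dualNumber DQ φ))) : φ' = φ := by
  letI := dualNumberAlgebra 𝒪
  haveI := (finTest_dualNumber (𝒪 := 𝒪)).finite
  haveI : IsNoetherianRing (DualNumber (ResidueField 𝒪)) := inferInstance
  haveI := isAdicComplete_dualNumber (ResidueField 𝒪)
  haveI := isLocalHom_algebraMap_dualNumber 𝒪
  exact algHom_eq_of_isEquiv DQ (finTest_dualNumber (𝒪 := 𝒪)).residue_surjective φ φ'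
    (isLocalHom_algHom_dualNumber DQ φ) (isLocalHom_algHom_dualNumber DQ φ') h𝒟 he

/-- **Counting dual-number points with a classifier.**  Assume `𝒟` is stable under the
surjections `DQ.R ↠ k[ε]`, and `c` is any invariant of surjective homs, with values in a finite
set `X`, that detects equivalence of the push-forwards.  Then `#Hom_𝒪(DQ.R, k[ε]) ≤ #X + 1`. -/
theorem card_algHom_dualNumber_le
    (hq : letI := dualNumberAlgebra 𝒪;
      ∀ φ : DQ.R →ₐ[𝒪] DualNumber (ResidueField 𝒪), Function.Surjective φ →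
        𝒟 (DQ.ρ.baseChangeAlong (φ : DQ.R →+* DualNumber (ResidueField 𝒪))
          (isLocalHom_algHom_dualNumber DQ φ)))
    {X : Type*} [Finite X]
    (c : letI := dualNumberAlgebra 𝒪;
      {φ : DQ.R →ₐ[𝒪] DualNumber (ResidueField 𝒪) // Function.Surjective φ} → X)
    (hc : letI := dualNumberAlgebra 𝒪;
      ∀ φ φ' : {φ : DQ.R →ₐ[𝒪] DualNumber (ResidueField 𝒪) // Function.Surjective φ},
        c φ = c φ' →
        (DQ.ρ.baseChangeAlong (φ'.1 : DQ.R →+* DualNumber (ResidueField 𝒪))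
          (isLocalHom_algHom_dualNumber DQ φ'.1)).IsEquiv
        (DQ.ρ.baseChangeAlong (φ.1 : DQ.R →+* DualNumber (ResidueField 𝒪))
          (isLocalHom_algHom_dualNumber DQ φ.1))) :
    letI := dualNumberAlgebra 𝒪
    Nat.card (DQ.R →ₐ[𝒪] DualNumber (ResidueField 𝒪)) ≤ Nat.card X + 1 := by
  classical
  letI := dualNumberAlgebra 𝒪
  let F : (DQ.R →ₐ[𝒪] DualNumber (ResidueField 𝒪)) → Option X := fun φ =>
    if h : Function.Surjective φ then some (c ⟨φ, h⟩) else none
  have hF : Function.Injective F := by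
    intro φ φ' hFF
    by_cases h : Function.Surjective φ
    · by_cases h' : Function.Surjective φ'
      · simp only [F, dif_pos h, dif_pos h', Option.some.injEq] at hFF
        exact (algHom_dualNumber_eq_of_isEquiv DQ φ φ' (hq φ h) (hc ⟨φ, h⟩ ⟨φ', h'⟩ hFF)).symm
      · simp only [F, dif_pos h, dif_neg h'] at hFF
        exact absurd hFF (by simp)
    · by_cases h' : Function.Surjective φ'
      · simp only [F, dif_neg h, dif_pos h'] at hFF
        exact absurd hFF (by simp)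
      · exact algHom_dualNumber_eq_of_not_surjective DQ.residue_surjective φ φ' h h'
  calc Nat.card (DQ.R →ₐ[𝒪] DualNumber (ResidueField 𝒪)) ≤ Nat.card (Option X) :=
        Nat.card_le_card_of_injective F hF
    _ = Nat.card X + 1 := Finite.card_option

/-- **`DQ.R` is a quotient of `𝒪⟦X₁,…,X_r⟧`** as soon as the surjections `DQ.R ↠ k[ε]` are
classified, up to equivalence of the push-forwards, by a set with at most `|k| ^ r` elements
(`|k| ≥ 3`, e.g. `p` odd). -/
theorem exists_surjective_of_classifier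
    (hq : letI := dualNumberAlgebra 𝒪;
      ∀ φ : DQ.R →ₐ[𝒪] DualNumber (ResidueField 𝒪), Function.Surjective φ →
        𝒟 (DQ.ρ.baseChangeAlong (φ : DQ.R →+* DualNumber (ResidueField 𝒪))
          (isLocalHom_algHom_dualNumber DQ φ)))
    {X : Type*} [Finite X]
    (c : letI := dualNumberAlgebra 𝒪;
      {φ : DQ.R →ₐ[𝒪] DualNumber (ResidueField 𝒪) // Function.Surjective φ} → X)
    (hc : letI := dualNumberAlgebra 𝒪;
      ∀ φ φ' : {φ : DQ.R →ₐ[𝒪] DualNumber (ResidueField 𝒪) // Function.Surjective φ},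
        c φ = c φ' →
        (DQ.ρ.baseChangeAlong (φ'.1 : DQ.R →+* DualNumber (ResidueField 𝒪))
          (isLocalHom_algHom_dualNumber DQ φ'.1)).IsEquiv
        (DQ.ρ.baseChangeAlong (φ.1 : DQ.R →+* DualNumber (ResidueField 𝒪))
          (isLocalHom_algHom_dualNumber DQ φ.1)))
    (h3 : 3 ≤ Nat.card (ResidueField 𝒪)) (r : ℕ)
    (hX : Nat.card X ≤ Nat.card (ResidueField 𝒪) ^ r) :
    ∃ γ : MvPowerSeries (Fin r) 𝒪 →ₐ[𝒪] DQ.R, Function.Surjective γ := by
  letI := dualNumberAlgebra 𝒪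
  refine exists_surjective_mvPowerSeries DQ.instIsLocalHom DQ.residue_surjective r ?_
  have h1 := card_algHom_dualNumber_le DQ hq c hc
  have hpos : 0 < Nat.card (ResidueField 𝒪) ^ r := pow_pos (by omega) r
  calc Nat.card (DQ.R →ₐ[𝒪] DualNumber (ResidueField 𝒪)) ≤ Nat.card X + 1 := h1
    _ ≤ Nat.card (ResidueField 𝒪) ^ r + 1 := by omega
    _ < 3 * Nat.card (ResidueField 𝒪) ^ r := by omega
    _ ≤ Nat.card (ResidueField 𝒪) ^ (r + 1) := by
        rw [pow_succ, mul_comm]
        exact Nat.mul_le_mul_left _ h3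

end Universal

end Fermat.Agent.S56.Ring
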