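/-
S56 (Taylor–Wiles primes), block (I), ring side, part 5 (helper14).

The ring-side reduction for the two frozen conditions of S56: for a universal deformation ring
`DQ` of type `strictOrdinaryCondition ∧ unipotent` (resp. `flatCondition ∧ unipotent`), a finite
classifier of the surjections `DQ.R ↠ k[ε]` with at most `|k| ^ r` values yields
`𝒪⟦X₁,…,X_r⟧ ↠ DQ.R` — verbatim the conclusion of the frozen statement.
-/
import Fermat.Agent.S56.Ring.Tangent
import Fermat.Agent.S56.Ring.CondBaseChange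

set_option autoImplicit false
set_option linter.unusedSectionVars false
set_option linter.style.haveILetI false

noncomputable section

namespace Fermat.Agent.S56.Ring

open IsLocalRing Fermat.Agent.S53

variable {𝒪 : Type} [CommRing 𝒪] [IsDomain 𝒪] [IsDiscreteValuationRing 𝒪]
  [IsAdicComplete (maximalIdeal 𝒪) 𝒪] [Finite (ResidueField 𝒪)]
  {ρbar : ResidualGaloisRep (ResidueField 𝒪)} {p : ℕ} {T Smin : Finset ℕ}

/-- Ring side of S56, strict-ordinary half. -/
theorem exists_surjective_strictOrdinary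
    (DQ : GaloisRep.DeformationRingData 𝒪 ρbar (fun _A _ _ _ ρ =>
      GaloisRep.strictOrdinaryCondition 𝒪 p T ρ ∧
        ∀ q ∈ Smin, q.Prime → q ≠ p → ρ.IsUnipotentOnInertiaAt q))
    {X : Type*} [Finite X]
    (c : letI := dualNumberAlgebra 𝒪;
      {φ : DQ.R →ₐ[𝒪] DualNumber (ResidueField 𝒪) // Function.Surjective φ} → X)
    (hc : letI := dualNumberAlgebra 𝒪;
      ∀ φ φ' : {φ : DQ.R →ₐ[𝒪] DualNumber (ResidueField 𝒪) // Function.Surjective φ},
        c φ = c φ' →
        (DQ.ρ.baseChangeAlong (φ'.1 : DQ.R →+* DualNumber (ResidueField 𝒪))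
          (isLocalHom_algHom_dualNumber DQ φ'.1)).IsEquiv
        (DQ.ρ.baseChangeAlong (φ.1 : DQ.R →+* DualNumber (ResidueField 𝒪))
          (isLocalHom_algHom_dualNumber DQ φ.1)))
    (h3 : 3 ≤ Nat.card (ResidueField 𝒪)) (r : ℕ)
    (hX : Nat.card X ≤ Nat.card (ResidueField 𝒪) ^ r) :
    ∃ γ : MvPowerSeries (Fin r) 𝒪 →ₐ[𝒪] DQ.R, Function.Surjective γ :=
  letI := dualNumberAlgebra 𝒪
  exists_surjective_of_classifier DQ
    (fun φ _ => strictOrdinary_unipotent_baseChangeAlong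
      (φ : DQ.R →+* DualNumber (ResidueField 𝒪)) (isLocalHom_algHom_dualNumber DQ φ) DQ.ρ
      DQ.isOfType)
    c hc h3 r hX

/-- Ring side of S56, flat half. -/
theorem exists_surjective_flat
    (DQ : GaloisRep.DeformationRingData 𝒪 ρbar (fun _A _ _ _ ρ =>
      GaloisRep.flatCondition 𝒪 p T ρ ∧
        ∀ q ∈ Smin, q.Prime → q ≠ p → ρ.IsUnipotentOnInertiaAt q))
    {X : Type*} [Finite X]
    (c : letI := dualNumberAlgebra 𝒪;
      {φ : DQ.R →ₐ[𝒪] DualNumber (ResidueField 𝒪) // Function.Surjective φ} → X)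
    (hc : letI := dualNumberAlgebra 𝒪;
      ∀ φ φ' : {φ : DQ.R →ₐ[𝒪] DualNumber (ResidueField 𝒪) // Function.Surjective φ},
        c φ = c φ' →
        (DQ.ρ.baseChangeAlong (φ'.1 : DQ.R →+* DualNumber (ResidueField 𝒪))
          (isLocalHom_algHom_dualNumber DQ φ'.1)).IsEquiv
        (DQ.ρ.baseChangeAlong (φ.1 : DQ.R →+* DualNumber (ResidueField 𝒪))
          (isLocalHom_algHom_dualNumber DQ φ.1)))
    (h3 : 3 ≤ Nat.card (ResidueField 𝒪)) (r : ℕ)
    (hX : Nat.card X ≤ Nat.card (ResidueField 𝒪) ^ r) :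
    ∃ γ : MvPowerSeries (Fin r) 𝒪 →ₐ[𝒪] DQ.R, Function.Surjective γ :=
  letI := dualNumberAlgebra 𝒪
  exists_surjective_of_classifier DQ
    (fun φ hs => flat_unipotent_baseChangeAlong_of_surjective
      (φ : DQ.R →+* DualNumber (ResidueField 𝒪)) (isLocalHom_algHom_dualNumber DQ φ) DQ.ρ hs
      DQ.isOfType)
    c hc h3 r hX

/-- `p` odd in the maximal ideal forces `|k| ≥ 3`. -/
theorem three_le_card_residueField {p : ℕ} [Fact p.Prime] (hp2 : p ≠ 2)
    (hp𝒪 : (p : 𝒪) ∈ maximalIdeal 𝒪) : 3 ≤ Nat.card (ResidueField 𝒪) := by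
  haveI : Fintype (ResidueField 𝒪) := Fintype.ofFinite _
  have h0 : ((p : ℕ) : ResidueField 𝒪) = 0 := by
    have := (IsLocalRing.residue_eq_zero_iff (p : 𝒪)).mpr hp𝒪
    rwa [map_natCast] at this
  haveI : CharP (ResidueField 𝒪) p := by
    refine (CharP.charP_iff_prime_eq_zero (Fact.out : p.Prime)).mpr h0
  have hdvd : p ∣ Nat.card (ResidueField 𝒪) := by
    rw [Nat.card_eq_fintype_card]
    obtain ⟨n, hn, hcard⟩ := FiniteField.card (ResidueField 𝒪) p
    rw [hcard]
    exact dvd_pow_self p n.ne_zero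
  have hp3 : 3 ≤ p := by
    have h2 := (Fact.out : p.Prime).two_le
    omega
  have hpos : 0 < Nat.card (ResidueField 𝒪) := Nat.card_pos
  exact hp3.trans (Nat.le_of_dvd hpos hdvd)

end Fermat.Agent.S56.Ring
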