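/-
S56 (Taylor–Wiles primes), block (I), ring side, part 4 (helper14).

Stability of the frozen local conditions under push-forward `GaloisRepAdic.baseChangeAlong`:

* `DetIsCyclotomic`, `IsUnramifiedAt`, `IsUnipotentOnInertiaAt`, `IsStrictOrdinaryAt` are stable
  under every local homomorphism;
* `IsFlatAt` is stable under surjective local homomorphisms.

Consequently both frozen conditions of S56 (`strictOrdinaryCondition ∧ unipotent`,
`flatCondition ∧ unipotent`) are stable under surjective local homomorphisms: this discharges the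
hypothesis `hq` of `Fermat.Agent.S56.Ring.card_algHom_dualNumber_le`.
-/
import Mathlib
import Fermat.Prelude.Def_GaloisRep_StrictOrdinary
import Fermat.Prelude.Def_GaloisRep_Flat

set_option autoImplicit false
set_option linter.unusedSectionVars false
set_option linter.style.haveILetI false

noncomputable section

namespace Fermat.Agent.S56.Ring

open IsLocalRing
open scoped TensorProduct

section General

variable {A B : Type} [CommRing A] [IsLocalRing A] [CommRing B] [IsLocalRing B]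
  (φ : A →+* B) (hφ : IsLocalHom φ) (ρ : GaloisRepAdic A)

theorem baseChangeAlong_ρ_apply (σ : AlgebraicClosure ℚ ≃ₐ[ℚ] AlgebraicClosure ℚ) :
    letI : Algebra A B := φ.toAlgebra
    (ρ.baseChangeAlong φ hφ).ρ σ = (ρ.ρ σ).baseChange B := rfl

theorem natCast_mem_maximalIdeal_of_isLocalHom (φ : A →+* B) (hφ : IsLocalHom φ) {p : ℕ}
    (hp : (p : A) ∈ maximalIdeal A) : (p : B) ∈ maximalIdeal B := by
  haveI := hφ
  have h := map_nonunit φ (p : A) hp
  rwa [map_natCast] at h

theorem natCast_sub_mem_span_map (φ : A →+* B) {x : A} {m : ℕ}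
    (h : x ∈ Ideal.span {((m : ℕ) : A)}) : φ x ∈ Ideal.span {((m : ℕ) : B)} := by
  have h1 := Ideal.mem_map_of_mem φ h
  rwa [Ideal.map_span, Set.image_singleton, map_natCast] at h1

/-- Unramifiedness is stable under push-forward. -/
theorem isUnramifiedAt_baseChangeAlong {q : ℕ} (h : ρ.IsUnramifiedAt q) :
    (ρ.baseChangeAlong φ hφ).IsUnramifiedAt q := by
  intro P hP σ hσ
  letI : Algebra A B := φ.toAlgebra
  show (ρ.ρ σ).baseChange B = 1
  rw [h P hP σ hσ]
  exact LinearMap.baseChange_one A ρ.V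

/-- Cyclotomic determinant is stable under push-forward. -/
theorem detIsCyclotomic_baseChangeAlong {p : ℕ} (h : ρ.DetIsCyclotomic p) :
    (ρ.baseChangeAlong φ hφ).DetIsCyclotomic p := by
  refine ⟨natCast_mem_maximalIdeal_of_isLocalHom φ hφ h.1, fun n σ a ha => ?_⟩
  letI : Algebra A B := φ.toAlgebra
  have h1 := h.2 n σ a ha
  have h2 : LinearMap.det ((ρ.ρ σ).baseChange B) - (a : B) =
      φ (LinearMap.det (ρ.ρ σ) - (a : A)) := by
    rw [LinearMap.det_baseChange, map_sub, map_natCast]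
    rfl
  show LinearMap.det ((ρ.ρ σ).baseChange B) - (a : B) ∈ Ideal.span {((p ^ n : ℕ) : B)}
  rw [h2]
  exact natCast_sub_mem_span_map φ h1

/-- Unipotent inertia is stable under push-forward. -/
theorem isUnipotentOnInertiaAt_baseChangeAlong {q : ℕ} (h : ρ.IsUnipotentOnInertiaAt q) :
    (ρ.baseChangeAlong φ hφ).IsUnipotentOnInertiaAt q := by
  intro P hP σ hσ
  letI : Algebra A B := φ.toAlgebra
  show LinearMap.charpoly ((ρ.ρ σ).baseChange B) = (Polynomial.X - 1) ^ 2
  rw [LinearMap.charpoly_baseChange, h P hP σ hσ]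
  simp

end General

/-! ### lines spanned by a basis vector -/

section Line

variable {A B : Type} [CommRing A] [CommRing B] [Algebra A B]
  {V : Type} [AddCommGroup V] [Module A V]

/-- `c ⊗ w` lies in the line spanned by `1 ⊗ v₀` when `w` lies in the line spanned by `v₀`. -/
theorem tmul_mem_span_one_tmul {v₀ w : V} (hw : w ∈ A ∙ v₀) (c : B) :
    c ⊗ₜ[A] w ∈ B ∙ ((1 : B) ⊗ₜ[A] v₀) := by
  obtain ⟨a, rfl⟩ := Submodule.mem_span_singleton.mp hw
  rw [Submodule.mem_span_singleton]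
  refine ⟨c * algebraMap A B a, ?_⟩
  rw [TensorProduct.tmul_smul, TensorProduct.smul_tmul', TensorProduct.smul_tmul', smul_eq_mul,
    mul_one, Algebra.smul_def, mul_comm]

/-- If `f v - z • v` always lies in the line `A ∙ v₀`, the same holds after base change. -/
theorem baseChange_sub_smul_mem_span (f : V →ₗ[A] V) (z : A) {v₀ : V}
    (h : ∀ v : V, f v - z • v ∈ A ∙ v₀) (y : B ⊗[A] V) :
    f.baseChange B y - algebraMap A B z • y ∈ B ∙ ((1 : B) ⊗ₜ[A] v₀) := by
  induction y using TensorProduct.induction_on with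
  | zero => simp
  | tmul c v =>
    have h1 : f.baseChange B (c ⊗ₜ[A] v) - algebraMap A B z • (c ⊗ₜ[A] v) =
        c ⊗ₜ[A] (f v - z • v) := by
      rw [LinearMap.baseChange_tmul, TensorProduct.tmul_sub, TensorProduct.tmul_smul,
        algebraMap_smul]
    rw [h1]
    exact tmul_mem_span_one_tmul (h v) c
  | add x y hx hy =>
    have h1 : f.baseChange B (x + y) - algebraMap A B z • (x + y) =
        (f.baseChange B x - algebraMap A B z • x) + (f.baseChange B y - algebraMap A B z • y) := by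
      rw [map_add, smul_add]; abel
    rw [h1]
    exact Submodule.add_mem _ hx hy

/-- If `f` is the scalar `x` on the line `A ∙ v₀`, its base change is the scalar `φ x` on the
line `B ∙ (1 ⊗ v₀)`. -/
theorem baseChange_eq_smul_of_mem_span (f : V →ₗ[A] V) (x : A) {v₀ : V}
    (h : ∀ w ∈ A ∙ v₀, f w = x • w) {y : B ⊗[A] V} (hy : y ∈ B ∙ ((1 : B) ⊗ₜ[A] v₀)) :
    f.baseChange B y = algebraMap A B x • y := by
  obtain ⟨c, rfl⟩ := Submodule.mem_span_singleton.mp hy
  rw [map_smul, LinearMap.baseChange_tmul, h v₀ (Submodule.mem_span_singleton_self v₀),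
    TensorProduct.tmul_smul, algebraMap_smul, smul_comm]

/-- Stability of the line. -/
theorem baseChange_mem_span_of_mem_span (f : V →ₗ[A] V) {v₀ : V}
    (h : ∀ w ∈ A ∙ v₀, f w ∈ A ∙ v₀) {y : B ⊗[A] V} (hy : y ∈ B ∙ ((1 : B) ⊗ₜ[A] v₀)) :
    f.baseChange B y ∈ B ∙ ((1 : B) ⊗ₜ[A] v₀) := by
  obtain ⟨c, rfl⟩ := Submodule.mem_span_singleton.mp hy
  rw [map_smul, LinearMap.baseChange_tmul]
  exact Submodule.smul_mem _ c
    (tmul_mem_span_one_tmul (h v₀ (Submodule.mem_span_singleton_self v₀)) 1)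

end Line

section StrictOrdinary

variable {A B : Type} [CommRing A] [IsLocalRing A] [CommRing B] [IsLocalRing B]
  (φ : A →+* B) (hφ : IsLocalHom φ) (ρ : GaloisRepAdic A)

/-- Strict ordinarity is stable under push-forward. -/
theorem isStrictOrdinaryAt_baseChangeAlong {p : ℕ} (h : ρ.IsStrictOrdinaryAt p) :
    (ρ.baseChangeAlong φ hφ).IsStrictOrdinaryAt p := by
  refine ⟨natCast_mem_maximalIdeal_of_isLocalHom φ hφ h.1, fun P hP => ?_⟩
  letI : Algebra A B := φ.toAlgebra
  obtain ⟨L, ⟨b, rfl⟩, hD, hI, hxz⟩ := h.2 P hP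
  let b' : Module.Basis (Fin 2) B (B ⊗[A] ρ.V) := Algebra.TensorProduct.basis B b
  have hb' : b' 0 = (1 : B) ⊗ₜ[A] b 0 := Algebra.TensorProduct.basis_apply b 0
  refine ⟨(B ∙ ((1 : B) ⊗ₜ[A] b 0) : Submodule B (B ⊗[A] ρ.V)),
    ⟨b', (congrArg (fun w => (B ∙ w : Submodule B (B ⊗[A] ρ.V))) hb').symm⟩, ?_, ?_, ?_⟩
  · intro σ hσ (v : B ⊗[A] ρ.V) hv
    have h1 : (ρ.ρ σ).baseChange B v ∈
        (B ∙ ((1 : B) ⊗ₜ[A] b 0) : Submodule B (B ⊗[A] ρ.V)) :=
      baseChange_mem_span_of_mem_span (ρ.ρ σ) (hD σ hσ) hv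
    exact h1
  · intro σ hσ (v : B ⊗[A] ρ.V)
    have h1 := baseChange_sub_smul_mem_span (B := B) (ρ.ρ σ) 1
      (fun v => by rw [one_smul]; exact hI σ hσ v) v
    rw [map_one, one_smul] at h1
    exact h1
  · intro σ hσ
    obtain ⟨x, z, hx, hz, hcong⟩ := hxz σ hσ
    refine ⟨φ x, φ z, fun (w : B ⊗[A] ρ.V) hw => ?_, fun (v : B ⊗[A] ρ.V) => ?_,
      fun n a ha => ?_⟩
    · have h1 : (ρ.ρ σ).baseChange B w = φ x • w :=
        baseChange_eq_smul_of_mem_span (ρ.ρ σ) x hx hw
      exact h1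
    · have h1 : (ρ.ρ σ).baseChange B v - φ z • v ∈
          (B ∙ ((1 : B) ⊗ₜ[A] b 0) : Submodule B (B ⊗[A] ρ.V)) :=
        baseChange_sub_smul_mem_span (B := B) (ρ.ρ σ) z hz v
      exact h1
    · have h1 := natCast_sub_mem_span_map φ (hcong n a ha)
      rwa [map_sub, map_mul, map_natCast] at h1

end StrictOrdinary

/-! ### the flat condition under surjective push-forward -/

section FlatTransport

variable {A B : Type} [CommRing A] [CommRing B] [Algebra A B]
  {V : Type} [AddCommGroup V] [Module A V]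

/-- The `algebraMap`-semilinear map `v ↦ 1 ⊗ v`. -/
def oneTmul (A B V : Type) [CommRing A] [CommRing B] [Algebra A B] [AddCommGroup V]
    [Module A V] : V →ₛₗ[algebraMap A B] B ⊗[A] V where
  toFun v := (1 : B) ⊗ₜ[A] v
  map_add' := TensorProduct.tmul_add 1
  map_smul' a v := by
    rw [TensorProduct.tmul_smul, algebraMap_smul]

theorem oneTmul_apply (v : V) : oneTmul A B V v = (1 : B) ⊗ₜ[A] v := rfl

theorem one_tmul_mem_smul_top {I : Ideal B} {v : V}
    (hv : v ∈ (I.comap (algebraMap A B)) • (⊤ : Submodule A V)) :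
    (1 : B) ⊗ₜ[A] v ∈ I • (⊤ : Submodule B (B ⊗[A] V)) := by
  refine Submodule.smul_induction_on hv ?_ ?_
  · intro a ha w _
    rw [TensorProduct.tmul_smul, ← algebraMap_smul B a ((1 : B) ⊗ₜ[A] w)]
    exact Submodule.smul_mem_smul (Ideal.mem_comap.mp ha) Submodule.mem_top
  · intro x y hx hy
    rw [TensorProduct.tmul_add]
    exact Submodule.add_mem _ hx hy

/-- The comparison map `V ⧸ (φ⁻¹ I) V → (B ⊗ V) ⧸ I (B ⊗ V)`. -/
def quotTmul (A : Type) {B : Type} (V : Type) [CommRing A] [CommRing B] [Algebra A B]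
    [AddCommGroup V] [Module A V] (I : Ideal B) :
    (V ⧸ ((I.comap (algebraMap A B)) • (⊤ : Submodule A V))) →ₛₗ[algebraMap A B]
      ((B ⊗[A] V) ⧸ (I • (⊤ : Submodule B (B ⊗[A] V)))) :=
  Submodule.mapQ _ _ (oneTmul A B V) (fun _ hv => one_tmul_mem_smul_top hv)

theorem quotTmul_mk (I : Ideal B) (v : V) :
    quotTmul A V I (Submodule.Quotient.mk v) = Submodule.Quotient.mk ((1 : B) ⊗ₜ[A] v) := rfl

theorem exists_one_tmul_eq (hsurj : Function.Surjective (algebraMap A B)) (y : B ⊗[A] V) :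
    ∃ v : V, (1 : B) ⊗ₜ[A] v = y := by
  induction y using TensorProduct.induction_on with
  | zero => exact ⟨0, TensorProduct.tmul_zero _ _⟩
  | tmul c v =>
    obtain ⟨a, rfl⟩ := hsurj c
    refine ⟨a • v, ?_⟩
    rw [TensorProduct.tmul_smul, TensorProduct.smul_tmul', Algebra.smul_def, mul_one]
  | add x y hx hy =>
    obtain ⟨v, rfl⟩ := hx
    obtain ⟨w, rfl⟩ := hy
    exact ⟨v + w, TensorProduct.tmul_add _ _ _⟩

theorem quotTmul_surjective (hsurj : Function.Surjective (algebraMap A B)) (I : Ideal B) :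
    Function.Surjective (quotTmul A V I) := by
  intro y
  obtain ⟨y, rfl⟩ := Submodule.Quotient.mk_surjective _ y
  obtain ⟨v, rfl⟩ := exists_one_tmul_eq hsurj y
  exact ⟨Submodule.Quotient.mk v, quotTmul_mk I v⟩

theorem repr_mem_of_mem_smul_top {ι : Type} (b : Module.Basis ι B (B ⊗[A] V)) {I : Ideal B}
    {y : B ⊗[A] V} (hy : y ∈ I • (⊤ : Submodule B (B ⊗[A] V))) (i : ι) : b.repr y i ∈ I := by
  refine Submodule.smul_induction_on hy ?_ ?_
  · intro c hc w _
    rw [map_smul, Finsupp.smul_apply, smul_eq_mul]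
    exact Ideal.mul_mem_right _ _ hc
  · intro x z hx hz
    rw [map_add, Finsupp.add_apply]
    exact Ideal.add_mem _ hx hz

theorem quotTmul_injective [Module.Free A V] [Module.Finite A V] (I : Ideal B) :
    Function.Injective (quotTmul A V I) := by
  rw [injective_iff_map_eq_zero]
  intro x hx
  obtain ⟨v, rfl⟩ := Submodule.Quotient.mk_surjective _ x
  rw [quotTmul_mk, Submodule.Quotient.mk_eq_zero] at hx
  rw [Submodule.Quotient.mk_eq_zero]
  let b := Module.Free.chooseBasis A V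
  let b' : Module.Basis _ B (B ⊗[A] V) := Algebra.TensorProduct.basis B b
  have h1 : ∀ i, b.repr v i ∈ I.comap (algebraMap A B) := by
    intro i
    have h2 := repr_mem_of_mem_smul_top b' hx i
    rw [Algebra.TensorProduct.basis_repr_tmul, Finsupp.smul_apply, Finsupp.mapRange_apply,
      smul_eq_mul, one_mul] at h2
    exact Ideal.mem_comap.mpr h2
  rw [← b.sum_repr v]
  exact Submodule.sum_mem _ fun i _ => Submodule.smul_mem_smul (h1 i) Submodule.mem_top

end FlatTransport

section Flat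

variable {A B : Type} [CommRing A] [IsLocalRing A] [CommRing B] [IsLocalRing B]
  (φ : A →+* B) (hφ : IsLocalHom φ) (ρ : GaloisRepAdic A)

/-- Flatness is stable under push-forward along SURJECTIVE local homomorphisms. -/
theorem isFlatAt_baseChangeAlong_of_surjective (hsurj : Function.Surjective φ) {p : ℕ}
    (h : ρ.IsFlatAt p) : (ρ.baseChangeAlong φ hφ).IsFlatAt p := by
  letI : Algebra A B := φ.toAlgebra
  haveI := hφ
  refine ⟨?_, fun I hI => ?_⟩
  · haveI := h.1
    refine Finite.of_surjective (ResidueField.map φ) ?_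
    intro y
    obtain ⟨c, rfl⟩ := IsLocalRing.residue_surjective y
    obtain ⟨a, rfl⟩ := hsurj c
    exact ⟨IsLocalRing.residue A a, ResidueField.map_residue φ a⟩
  · have hJ : Finite (A ⧸ I.comap φ) :=
      Finite.of_injective (Ideal.quotientMap I φ le_rfl) Ideal.quotientMap_injective
    obtain ⟨H, iC, iH, hfin, hflat, hcocomm, e₀, hadd, hequiv⟩ := h.2 (I.comap φ) hJ
    let G : (ρ.V ⧸ ((I.comap φ) • (⊤ : Submodule A ρ.V))) ≃
        ((B ⊗[A] ρ.V) ⧸ (I • (⊤ : Submodule B (B ⊗[A] ρ.V)))) :=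
      Equiv.ofBijective (quotTmul A ρ.V I)
        ⟨quotTmul_injective I, quotTmul_surjective hsurj I⟩
    refine ⟨H, iC, iH, hfin, hflat, hcocomm, e₀.trans G, fun f g => ?_, fun σ f g hfg => ?_⟩
    · show quotTmul A ρ.V I (e₀ (f * g)) = quotTmul A ρ.V I (e₀ f) + quotTmul A ρ.V I (e₀ g)
      rw [hadd, map_add]
    · show quotTmul A ρ.V I (e₀ g) =
        (ρ.baseChangeAlong φ hφ).levelAction I σ (quotTmul A ρ.V I (e₀ f))
      rw [hequiv σ f g hfg]
      generalize e₀ f = x
      obtain ⟨v, rfl⟩ := Submodule.Quotient.mk_surjective _ x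
      rfl

end Flat

/-! ### the two frozen conditions of S56 -/

section Conditions

variable {𝒪 : Type} [CommRing 𝒪]
  {A B : Type} [CommRing A] [IsLocalRing A] [Algebra 𝒪 A] [CommRing B] [IsLocalRing B]
  [Algebra 𝒪 B] (φ : A →+* B) (hφ : IsLocalHom φ) (ρ : GaloisRepAdic A)

/-- The strict-ordinary condition with unipotent inertia on `Smin` is stable under push-forward
along every local homomorphism. -/
theorem strictOrdinary_unipotent_baseChangeAlong {p : ℕ} {T Smin : Finset ℕ}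
    (h : GaloisRep.strictOrdinaryCondition 𝒪 p T ρ ∧
      ∀ q ∈ Smin, q.Prime → q ≠ p → ρ.IsUnipotentOnInertiaAt q) :
    GaloisRep.strictOrdinaryCondition 𝒪 p T (ρ.baseChangeAlong φ hφ) ∧
      ∀ q ∈ Smin, q.Prime → q ≠ p → (ρ.baseChangeAlong φ hφ).IsUnipotentOnInertiaAt q :=
  ⟨⟨detIsCyclotomic_baseChangeAlong φ hφ ρ h.1.1,
    isStrictOrdinaryAt_baseChangeAlong φ hφ ρ h.1.2.1,
    fun q hq hqT => isUnramifiedAt_baseChangeAlong φ hφ ρ (h.1.2.2 q hq hqT)⟩,
    fun q hq hqp hne => isUnipotentOnInertiaAt_baseChangeAlong φ hφ ρ (h.2 q hq hqp hne)⟩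

/-- The flat condition with unipotent inertia on `Smin` is stable under push-forward along
surjective local homomorphisms. -/
theorem flat_unipotent_baseChangeAlong_of_surjective (hsurj : Function.Surjective φ) {p : ℕ}
    {T Smin : Finset ℕ}
    (h : GaloisRep.flatCondition 𝒪 p T ρ ∧
      ∀ q ∈ Smin, q.Prime → q ≠ p → ρ.IsUnipotentOnInertiaAt q) :
    GaloisRep.flatCondition 𝒪 p T (ρ.baseChangeAlong φ hφ) ∧
      ∀ q ∈ Smin, q.Prime → q ≠ p → (ρ.baseChangeAlong φ hφ).IsUnipotentOnInertiaAt q :=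
  ⟨⟨detIsCyclotomic_baseChangeAlong φ hφ ρ h.1.1,
    isFlatAt_baseChangeAlong_of_surjective φ hφ ρ hsurj h.1.2.1,
    fun q hq hqT => isUnramifiedAt_baseChangeAlong φ hφ ρ (h.1.2.2 q hq hqT)⟩,
    fun q hq hqp hne => isUnipotentOnInertiaAt_baseChangeAlong φ hφ ρ (h.2 q hq hqp hne)⟩

end Conditions

end Fermat.Agent.S56.Ring
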